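/-
Programme MS (S12), chapter GLOB (helper6): **the tame behaviour of `ζ_p`** at a valuation subring
`A` of `ℚ̄`.

`ζ := S14.Fields.zeta p`, `π := 1 - ζ`.

* `val_one_sub_zeta_pow_le`, `val_one_sub_zeta_pow_eq` : `v (1 - ζ ^ j) = v (1 - ζ)` for `p ∤ j`;
* `val_pi_pow` : `v (1 - ζ) ^ (p - 1) = v p`;
* `val_sigma_pi_sub` : `v (σ π - χ(σ) π) ≤ v π ^ 2`  (`χ(σ) = cycloExp p σ`);
* `cycloExp_eq_one_of_inertia` : `χ` is unramified outside `p`;
* `exists_inertia_cycloExp_ne_one` : **`χ` is ramified at `p`** : for every `A` over `p` there is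
  `σ` in the inertia group of `A` with `χ(σ) ≢ 1 mod p`.
-/
import Mathlib
import Fermat.Agent.S05.Inertia
import Fermat.Agent.S14.Fields
import Fermat.Agent.S13.UnramBridge

set_option autoImplicit false
set_option linter.unusedSectionVars false
set_option linter.style.longLine false
set_option linter.style.haveILetI false

namespace Fermat.Agent.MS.GLOB.TameCyc6

open ExtCitation Finset
open Fermat.Agent.S05.Inertia Fermat.Agent.S14.Fields

local notation "Qb" => AlgebraicClosure ℚ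
local notation "GQ" => (AlgebraicClosure ℚ ≃ₐ[ℚ] AlgebraicClosure ℚ)

variable (p : ℕ) [Fact p.Prime] (A : ValuationSubring Qb)

theorem zeta_pow_p : zeta p ^ p = 1 := (zeta_spec p).pow_eq_one

theorem val_zeta : A.valuation (zeta p) = 1 := by
  have hp : p ≠ 0 := (Fact.out : p.Prime).ne_zero
  have h : A.valuation (zeta p) ^ p = 1 := by
    rw [← map_pow, zeta_pow_p, map_one]
  exact (pow_left_inj₀ zero_le zero_le hp).mp (h.trans (one_pow p).symm)

theorem val_zeta_pow (j : ℕ) : A.valuation (zeta p ^ j) = 1 := by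
  rw [map_pow, val_zeta, one_pow]

/-- the geometric sum is integral. -/
theorem val_geom_le (x : Qb) (hx : A.valuation x ≤ 1) (j : ℕ) :
    A.valuation (∑ i ∈ range j, x ^ i) ≤ 1 := by
  refine Valuation.map_sum_le _ fun i _ => ?_
  rw [map_pow]
  exact pow_le_one₀ zero_le hx

theorem val_one_sub_pow_le (x : Qb) (hx : A.valuation x ≤ 1) (j : ℕ) :
    A.valuation (1 - x ^ j) ≤ A.valuation (1 - x) := by
  rw [← mul_neg_geom_sum, map_mul]
  calc A.valuation (1 - x) * A.valuation (∑ i ∈ range j, x ^ i)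
      ≤ A.valuation (1 - x) * 1 := mul_le_mul' le_rfl (val_geom_le A x hx j)
    _ = A.valuation (1 - x) := mul_one _

theorem val_one_sub_zeta_pow_le (j : ℕ) :
    A.valuation (1 - zeta p ^ j) ≤ A.valuation (1 - zeta p) :=
  val_one_sub_pow_le A (zeta p) (val_zeta p A).le j

/-- `v (1 - ζ ^ j) = v (1 - ζ)` for `p ∤ j`. -/
theorem val_one_sub_zeta_pow_eq {j : ℕ} (hj : ¬ p ∣ j) :
    A.valuation (1 - zeta p ^ j) = A.valuation (1 - zeta p) := by
  have hp : p.Prime := Fact.out
  refine le_antisymm (val_one_sub_zeta_pow_le p A j) ?_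
  -- `ζ = (ζ ^ j) ^ j'`
  have hcop : Nat.Coprime j p := ((Nat.Prime.coprime_iff_not_dvd hp).mpr hj).symm
  obtain ⟨j', -, hj'⟩ := Nat.exists_mul_mod_eq_one_of_coprime hcop hp.one_lt
  have hz : (zeta p ^ j) ^ j' = zeta p := by
    rw [← pow_mul]
    have h1 : zeta p ^ (j * j') = zeta p ^ (j * j' % p) := by
      conv_lhs => rw [← Nat.div_add_mod (j * j') p, pow_add, pow_mul, zeta_pow_p, one_pow, one_mul]
    rw [h1, hj', pow_one]
  calc A.valuation (1 - zeta p) = A.valuation (1 - (zeta p ^ j) ^ j') := by rw [hz]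
    _ ≤ A.valuation (1 - zeta p ^ j) :=
      val_one_sub_pow_le A (zeta p ^ j) (val_zeta_pow p A j).le j'

/-- `v (1 - ζ) ^ (p - 1) = v p`. -/
theorem val_pi_pow : A.valuation (1 - zeta p) ^ (p - 1) = A.valuation (p : Qb) := by
  have hp : p.Prime := Fact.out
  obtain ⟨n, hn⟩ : ∃ n, p = n + 1 := ⟨p - 1, (Nat.succ_pred_eq_of_pos hp.pos).symm⟩
  have hζ : IsPrimitiveRoot (zeta p) (n + 1) := hn ▸ zeta_spec p
  have hprod := hζ.prod_one_sub_pow_eq_order
  have h1 : A.valuation (∏ k ∈ range n, (1 - zeta p ^ (k + 1))) = A.valuation (1 - zeta p) ^ n := by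
    rw [map_prod]
    rw [Finset.prod_congr rfl (g := fun _ => A.valuation (1 - zeta p))]
    · rw [Finset.prod_const, card_range]
    · intro k hk
      refine val_one_sub_zeta_pow_eq p A ?_
      intro hdvd
      have hk' : k + 1 < p := by
        have := mem_range.mp hk
        omega
      exact absurd (Nat.le_of_dvd (Nat.succ_pos k) hdvd) (not_le.mpr hk')
  have hn' : p - 1 = n := by omega
  rw [hn', ← h1, hprod]
  congr 1
  rw [hn]
  push_cast
  ring

theorem val_pi_lt_one (hA : A.LiesOverPrime p) : A.valuation (1 - zeta p) < 1 := by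
  have hp : p.Prime := Fact.out
  by_contra hcon
  have h1 : 1 ≤ A.valuation (1 - zeta p) := not_lt.mp hcon
  have h2 : 1 ≤ A.valuation (1 - zeta p) ^ (p - 1) := one_le_pow₀ h1
  rw [val_pi_pow] at h2
  exact absurd (valuation_prime_lt_one hA) (not_lt.mpr h2)

theorem pi_ne_zero : (1 : Qb) - zeta p ≠ 0 := by
  have hp : p.Prime := Fact.out
  intro h
  have h1 : zeta p = 1 := (sub_eq_zero.mp h).symm
  have := (zeta_spec p).eq_orderOf
  rw [h1, orderOf_one] at this
  exact hp.one_lt.ne' this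

/-- `σ π ≡ χ(σ) π` modulo `π ^ 2`. -/
theorem val_sigma_pi_sub (σ : GQ) :
    A.valuation (σ (1 - zeta p) - (cycloExp p σ : Qb) * (1 - zeta p))
      ≤ A.valuation (1 - zeta p) ^ 2 := by
  set k := cycloExp p σ with hk
  have h1 : σ (1 - zeta p) = 1 - zeta p ^ k := by
    rw [map_sub, map_one, apply_zeta]
  have h2 : (1 : Qb) - zeta p ^ k - (k : Qb) * (1 - zeta p)
      = -((1 - zeta p) * ∑ i ∈ range k, (1 - zeta p ^ i)) := by
    have h3 := mul_neg_geom_sum (zeta p) k
    rw [Finset.sum_sub_distrib, Finset.sum_const, card_range, nsmul_eq_mul, mul_one]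
    linear_combination -h3
  rw [h1, h2, Valuation.map_neg, map_mul, sq]
  refine mul_le_mul' le_rfl ?_
  exact Valuation.map_sum_le _ fun i _ => val_one_sub_zeta_pow_le p A i

/-- `v (ζ ^ a - ζ ^ b) = v (1 - ζ)` for `a ≢ b mod p`. -/
theorem val_zeta_pow_sub {a b : ℕ} (hab : ((a : ℕ) : ZMod p) ≠ ((b : ℕ) : ZMod p)) :
    A.valuation (zeta p ^ a - zeta p ^ b) = A.valuation (1 - zeta p) := by
  wlog hle : a ≤ b generalizing a b
  · rw [Valuation.map_sub_swap]
    exact this (Ne.symm hab) (le_of_not_ge hle)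
  obtain ⟨d, rfl⟩ := Nat.exists_eq_add_of_le hle
  have h1 : zeta p ^ a - zeta p ^ (a + d) = zeta p ^ a * (1 - zeta p ^ d) := by ring
  rw [h1, map_mul, val_zeta_pow, one_mul]
  refine val_one_sub_zeta_pow_eq p A ?_
  intro hd
  apply hab
  push_cast
  rw [(ZMod.natCast_eq_zero_iff d p).mpr hd, add_zero]

variable {p A}

/-- an automorphism fixing `ζ` fixes `ℚ(ζ)` pointwise. -/
theorem apply_eq_of_mem_adjoin {σ : GQ} (hσ : σ (zeta p) = zeta p) {x : Qb}
    (hx : x ∈ IntermediateField.adjoin ℚ {zeta p}) : σ x = x := by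
  have h := IntermediateField.adjoin_algHom_ext ℚ (s := {zeta p})
    (φ₁ := (σ : Qb →ₐ[ℚ] Qb).comp (IntermediateField.adjoin ℚ {zeta p}).val)
    (φ₂ := (IntermediateField.adjoin ℚ {zeta p}).val)
    (by
      intro y hy
      rw [Set.mem_singleton_iff] at hy
      subst hy
      exact hσ)
  exact congrArg (fun φ => φ ⟨x, hx⟩) h

theorem apply_zeta_eq_iff {σ : GQ} :
    σ (zeta p) = zeta p ↔ ((cycloExp p σ : ℕ) : ZMod p) = 1 := by
  rw [apply_zeta]
  conv_lhs => rw [← pow_one (zeta p), ← pow_mul, one_mul]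
  rw [zeta_pow_eq_pow_iff, Nat.cast_one]

/-- **`χ` is unramified outside `p`.** -/
theorem cycloExp_eq_one_of_inertia {q : ℕ} (hq : q.Prime) (hqp : q ≠ p)
    (hA : A.LiesOverPrime q) {σ : GQ} (hσ : σ ∈ A.inertiaSubgroupIn ℚ) :
    ((cycloExp p σ : ℕ) : ZMod p) = 1 := by
  have hp : p.Prime := Fact.out
  by_contra hne
  have h1 : A.valuation (σ (zeta p) - zeta p) < 1 :=
    valuation_sub_lt_one_rat hσ (val_zeta p A).le
  have h2 : A.valuation (σ (zeta p) - zeta p) = A.valuation (1 - zeta p) := by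
    rw [apply_zeta]
    conv_lhs => rw [← pow_one (zeta p), ← pow_mul, one_mul]
    exact val_zeta_pow_sub p A (by rwa [Nat.cast_one])
  have h3 : A.valuation (1 - zeta p) ^ (p - 1) = 1 := by
    rw [val_pi_pow, valuation_prime_eq_one hq hA hp hqp]
  have h4 : A.valuation (1 - zeta p) = 1 := by
    have hp1 : p - 1 ≠ 0 := by have := hp.two_le; omega
    exact (pow_left_inj₀ zero_le zero_le hp1).mp (h3.trans (one_pow _).symm)
  rw [h2, h4] at h1
  exact lt_irrefl _ h1

/-- **`χ` is ramified at `p`** (`p ≥ 3`): every inertia group over `p` contains an element moving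
`ζ_p`. -/
theorem exists_inertia_cycloExp_ne_one (h3 : 3 ≤ p) (hA : A.LiesOverPrime p) :
    ∃ σ ∈ A.inertiaSubgroupIn ℚ, ((cycloExp p σ : ℕ) : ZMod p) ≠ 1 := by
  have hp : p.Prime := Fact.out
  set K : IntermediateField ℚ Qb := IntermediateField.adjoin ℚ {zeta p} with hK
  haveI : FiniteDimensional ℚ K :=
    IntermediateField.adjoin.finiteDimensional (Algebra.IsIntegral.isIntegral _)
  haveI : IsCyclotomicExtension {p} ℚ K :=
    (zeta_spec p).intermediateField_adjoin_isCyclotomicExtension ℚ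
  haveI : IsGalois ℚ K := IsCyclotomicExtension.isGalois {p} ℚ K
  have hKbot : K ≠ ⊥ := by
    intro hbot
    obtain ⟨τ, hτ⟩ := exists_cycloExp_ne_one p h3
    apply hτ
    rw [← apply_zeta_eq_iff]
    have hz : zeta p ∈ K := IntermediateField.mem_adjoin_simple_self ℚ (zeta p)
    rw [hbot, IntermediateField.mem_bot] at hz
    obtain ⟨r, hr⟩ := hz
    rw [← hr]
    exact τ.commutes r
  obtain ⟨q, hq, hqA⟩ := Fermat.Agent.S13.UnramBridge.bridge K hKbot
  have hqp : q = p := by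
    by_contra hne
    obtain ⟨A', hA'⟩ := Fermat.Agent.S13.UnramBridge.exists_liesOverPrime_qbar q hq
    obtain ⟨σ, hσ, x, hx, hx'⟩ := hqA A' hA'
    exact hx' (apply_eq_of_mem_adjoin
      (apply_zeta_eq_iff.mpr (cycloExp_eq_one_of_inertia hq hne hA' hσ)) hx)
  subst hqp
  obtain ⟨σ, hσ, x, hx, hx'⟩ := hqA A hA
  refine ⟨σ, hσ, fun h1 => hx' ?_⟩
  exact apply_eq_of_mem_adjoin (apply_zeta_eq_iff.mpr h1) hx

/-- **tame comparison** : an element `z` with `v z ^ (p - 1) = v p` on which an inertia element `σ`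
over `p` acts by `σ z ≡ j z` modulo `z ^ 2` has `j ≡ χ(σ) mod p`. -/
theorem tame_compare (hA : A.LiesOverPrime p) {σ : GQ} (hσ : σ ∈ A.inertiaSubgroupIn ℚ) {z : Qb}
    (hz : A.valuation z ^ (p - 1) = A.valuation (p : Qb)) {j : ℕ}
    (hj : A.valuation (σ z - (j : Qb) * z) ≤ A.valuation z ^ 2) :
    ((j : ℕ) : ZMod p) = ((cycloExp p σ : ℕ) : ZMod p) := by
  have hp : p.Prime := Fact.out
  have hp1 : p - 1 ≠ 0 := by have := hp.two_le; omega
  set π : Qb := 1 - zeta p with hπ
  have hπ0 : π ≠ 0 := pi_ne_zero p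
  have hvz : A.valuation z = A.valuation π :=
    (pow_left_inj₀ zero_le zero_le hp1).mp (hz.trans (val_pi_pow p A).symm)
  set r := A.valuation π with hr
  have hrlt : r < 1 := val_pi_lt_one p A hA
  have hrpos : 0 < r := (Valuation.pos_iff _).mpr hπ0
  have hr2 : r ^ 2 < r := by
    rw [sq]
    calc r * r < r * 1 := mul_lt_mul_of_pos_left hrlt hrpos
      _ = r := mul_one r
  set k := cycloExp p σ with hk
  set ρ : Qb := z / π with hρ
  have hzρ : z = ρ * π := by rw [hρ, div_mul_cancel₀ _ hπ0]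
  have hvρ : A.valuation ρ = 1 := by
    rw [hρ, map_div₀, hvz, div_self hrpos.ne']
  have hσρ : A.valuation (σ ρ) = 1 := by rw [valuation_apply_rat hσ, hvρ]
  have hρsub : A.valuation (σ ρ - ρ) < 1 := valuation_sub_lt_one_rat hσ hvρ.le
  have hπsub : A.valuation (σ π - (k : Qb) * π) ≤ r ^ 2 := val_sigma_pi_sub p A σ
  have hident : ((j : Qb) - (k : Qb)) * z
      = (σ ρ * (σ π - (k : Qb) * π) + (k : Qb) * π * (σ ρ - ρ)) - (σ z - (j : Qb) * z) := by
    have : σ z = σ ρ * σ π := by rw [hzρ, map_mul]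
    rw [this, hzρ]
    ring
  have h1 : A.valuation (σ ρ * (σ π - (k : Qb) * π)) < r := by
    rw [map_mul, hσρ, one_mul]
    exact lt_of_le_of_lt hπsub hr2
  have h2 : A.valuation ((k : Qb) * π * (σ ρ - ρ)) < r := by
    rw [map_mul, map_mul]
    calc A.valuation (k : Qb) * r * A.valuation (σ ρ - ρ) ≤ 1 * r * A.valuation (σ ρ - ρ) :=
          mul_le_mul' (mul_le_mul' (valuation_natCast_le_one k) le_rfl) le_rfl
      _ = r * A.valuation (σ ρ - ρ) := by rw [one_mul]
      _ < r * 1 := mul_lt_mul_of_pos_left hρsub hrpos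
      _ = r := mul_one r
  have h3 : A.valuation (σ z - (j : Qb) * z) < r := by
    refine lt_of_le_of_lt hj ?_
    rw [hvz]; exact hr2
  have h4 : A.valuation (((j : Qb) - (k : Qb)) * z) < r := by
    rw [hident]
    exact Valuation.map_sub_lt _ (Valuation.map_add_lt _ h1 h2) h3
  rw [map_mul, hvz] at h4
  have h5 : A.valuation ((j : Qb) - (k : Qb)) < 1 := by
    by_contra hcon
    have h6 : 1 ≤ A.valuation ((j : Qb) - (k : Qb)) := not_lt.mp hcon
    have : r ≤ A.valuation ((j : Qb) - (k : Qb)) * r := by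
      calc r = 1 * r := (one_mul r).symm
        _ ≤ A.valuation ((j : Qb) - (k : Qb)) * r := mul_le_mul' h6 le_rfl
    exact absurd h4 (not_lt.mpr this)
  have h6 : ((j : Qb) - (k : Qb)) = (((j : ℤ) - (k : ℤ) : ℤ) : Qb) := by push_cast; ring
  rw [h6, valuation_intCast_lt_one_iff hp hA] at h5
  have h7 := (ZMod.intCast_zmod_eq_zero_iff_dvd ((j : ℤ) - (k : ℤ)) p).mpr h5
  push_cast at h7
  exact sub_eq_zero.mp h7

end Fermat.Agent.MS.GLOB.TameCyc6
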