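/-
Programme MS (S12), chapter GLOB (helper6): **the valuation of the `z`-coordinate of a `p`-torsion
point in the kernel of reduction at `p`, on a Galois-stable line.**

`W'` a Weierstrass curve over `ℚ` with `A`-integral coefficients (`A` a valuation subring of `ℚ̄` over
the odd prime `p`), `Q ∈ E₁` a point of order `p` such that the line `⟨Q⟩` is Galois-stable. Then

  **`v (z(Q)) ^ (p - 1) = v p`**   (`val_zc_pow_eq`).

* `≤` : `∏_{j} z(jQ)` (over a Galois-stable finite set) is rational of valuation `< 1`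
  (`val_le_val_p_of_rat`);
* `≥` : `preΨ_p` has integral coefficients and leading coefficient `p`; evaluation at an integral `u`
  avoiding the residues of the integral roots (`exists_avoid`, `val_leadingCoeff_mul_prod_le_one`).
-/
import Mathlib
import Fermat.Agent.S05.Kernel
import Fermat.Agent.S05.Inertia
import Fermat.Agent.S13.AtPSuper
import Fermat.Agent.ES.KRON.KronInst10

set_option autoImplicit false
set_option linter.unusedSectionVars false
set_option linter.style.longLine false
set_option linter.style.haveILetI false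

namespace Fermat.Agent.MS.GLOB.ValZ6

open Polynomial WeierstrassCurve WeierstrassCurve.Affine
open Fermat.Agent.S05.Kernel Fermat.Agent.S05.Inertia Fermat.Agent.S13.AtPSuper

local notation "Qb" => AlgebraicClosure ℚ
local notation "GQ" => (AlgebraicClosure ℚ ≃ₐ[ℚ] AlgebraicClosure ℚ)

section Avoid

variable (A : ValuationSubring Qb)

/-- an integral element incongruent to all the integral elements of a finite set. -/
theorem exists_avoid (S : Finset Qb) :
    ∃ u : Qb, A.valuation u ≤ 1 ∧ ∀ ρ ∈ S, A.valuation ρ ≤ 1 → A.valuation (u - ρ) = 1 := by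
  classical
  haveI : IsAlgClosed (IsLocalRing.ResidueField A) :=
    Fermat.Agent.ES.KRON.KronInst10.isAlgClosed_residueField A
  haveI : Infinite (IsLocalRing.ResidueField A) := inferInstance
  let r : Qb → IsLocalRing.ResidueField A := fun ρ =>
    if h : ρ ∈ A then IsLocalRing.residue A ⟨ρ, h⟩ else 0
  obtain ⟨c, hc⟩ := Infinite.exists_notMem_finset (S.image r)
  obtain ⟨u', hu'⟩ := IsLocalRing.residue_surjective (R := A) c
  refine ⟨u', A.valuation_le_one u', fun ρ hρ hv => ?_⟩
  have hρA : ρ ∈ A := (A.valuation_le_one_iff ρ).mp hv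
  have hne : IsLocalRing.residue A (u' - ⟨ρ, hρA⟩) ≠ 0 := by
    rw [map_sub, hu', sub_ne_zero]
    intro h
    refine hc (Finset.mem_image.mpr ⟨ρ, hρ, ?_⟩)
    simp only [r, dif_pos hρA]
    exact h.symm
  have hunit : IsUnit (u' - ⟨ρ, hρA⟩ : A) := by
    by_contra hnu
    exact hne ((IsLocalRing.residue_eq_zero_iff _).mpr ((IsLocalRing.mem_maximalIdeal _).mpr hnu))
  exact (A.valuation_eq_one_iff _).mp hunit

/-- **the evaluation trick** : `v (lc f) · ∏_{ξ ∈ X} v ξ ≤ 1` for a polynomial with integral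
coefficients and a finite set `X` of non-integral roots. -/
theorem val_leadingCoeff_mul_prod_le_one (f : Qb[X]) (hf0 : f ≠ 0)
    (hcoef : ∀ i, A.valuation (f.coeff i) ≤ 1) (X : Finset Qb)
    (hroot : ∀ ξ ∈ X, f.eval ξ = 0 ∧ 1 < A.valuation ξ) :
    A.valuation f.leadingCoeff * ∏ ξ ∈ X, A.valuation ξ ≤ 1 := by
  classical
  obtain ⟨u, hu, hav⟩ := exists_avoid A f.roots.toFinset
  set g : Qb[X] := f.comp (Polynomial.X + Polynomial.C u) with hg
  have hdeg : (Polynomial.X + Polynomial.C u : Qb[X]).natDegree ≠ 0 := by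
    rw [natDegree_X_add_C]; exact one_ne_zero
  have hlc : g.leadingCoeff = f.leadingCoeff := by
    rw [hg, leadingCoeff_comp hdeg, leadingCoeff_X_add_C, one_pow, mul_one]
  have hg0 : g ≠ 0 := by
    intro h
    have : g.leadingCoeff = 0 := by rw [h, leadingCoeff_zero]
    rw [hlc, leadingCoeff_eq_zero] at this
    exact hf0 this
  have hgeval : ∀ t : Qb, g.eval t = f.eval (t + u) := by
    intro t
    rw [hg, eval_comp, eval_add, eval_X, eval_C]
  have hsplit : g.Splits := IsAlgClosed.splits g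
  have hroots : ∀ ρ ∈ g.roots, 1 ≤ A.valuation ρ := by
    intro ρ hρ
    have h1 : f.eval (ρ + u) = 0 := by
      rw [← hgeval]; exact (Polynomial.mem_roots hg0).mp hρ
    have h2 : ρ + u ∈ f.roots.toFinset := by
      rw [Multiset.mem_toFinset, Polynomial.mem_roots hf0]; exact h1
    have h3 : ρ = (ρ + u) - u := by ring
    by_cases hv : A.valuation (ρ + u) ≤ 1
    · have h4 := hav (ρ + u) h2 hv
      rw [h3, Valuation.map_sub_swap, h4]
    · have hv' : 1 < A.valuation (ρ + u) := not_le.mp hv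
      rw [h3, Valuation.map_sub_eq_of_lt_left _ (lt_of_le_of_lt hu hv')]
      exact hv'.le
  set S : Finset Qb := X.image (fun ξ => ξ - u) with hSdef
  have hS : ∀ ρ ∈ S, ρ ∈ g.roots := by
    intro ρ hρ
    obtain ⟨ξ, hξ, rfl⟩ := Finset.mem_image.mp hρ
    rw [Polynomial.mem_roots hg0, IsRoot.def, hgeval, sub_add_cancel]
    exact (hroot ξ hξ).1
  have hmain := val_leadingCoeff_mul_prod_le A.valuation hsplit hroots S hS
  have hprod : ∏ ρ ∈ S, A.valuation ρ = ∏ ξ ∈ X, A.valuation ξ := by
    rw [hSdef, Finset.prod_image (fun a _ b _ h => sub_left_injective h)]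
    refine Finset.prod_congr rfl fun ξ hξ => ?_
    exact Valuation.map_sub_eq_of_lt_left _ (lt_of_le_of_lt hu (hroot ξ hξ).2)
  have hc0 : A.valuation (g.coeff 0) ≤ 1 := by
    rw [coeff_zero_eq_eval_zero, hgeval, zero_add, eval_eq_sum_range]
    refine Valuation.map_sum_le _ fun i _ => ?_
    rw [map_mul, map_pow]
    calc A.valuation (f.coeff i) * A.valuation u ^ i ≤ 1 * 1 :=
          mul_le_mul' (hcoef i) (pow_le_one₀ zero_le hu)
      _ = 1 := mul_one 1
  rw [hlc, hprod] at hmain
  exact hmain.trans hc0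

/-- a rational number of valuation `< 1` at a place over `p` has valuation `≤ v p`. -/
theorem val_le_val_p_of_rat {p : ℕ} (hp : p.Prime) (hA : A.LiesOverPrime p) (q : ℚ)
    (hq : A.valuation (q : Qb) < 1) : A.valuation (q : Qb) ≤ A.valuation (p : Qb) := by
  by_cases hq0 : q = 0
  · rw [hq0, Rat.cast_zero, map_zero]; exact zero_le
  have hq0' : (q : Qb) ≠ 0 := by exact_mod_cast hq0
  have hpos : 0 < A.valuation (q : Qb) := (Valuation.pos_iff _).mpr hq0'
  have hinv : 1 < A.valuation ((q⁻¹ : ℚ) : Qb) := by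
    rw [Rat.cast_inv, map_inv₀]
    exact (one_lt_inv₀ hpos).mpr hq
  have h := one_le_val_p_mul_of_one_lt A.valuation hp (fun n => valuation_intCast_le_one n)
    (fun n hn => valuation_intCast_eq_one hp hA hn) q⁻¹ hinv
  rw [Rat.cast_inv, map_inv₀] at h
  have h' := (le_mul_inv_iff₀ hpos).mp h
  rwa [one_mul] at h'

end Avoid

section Main

variable {W' : Affine ℚ} (A : ValuationSubring Qb)

theorem zc_smul (σ : GQ) (P : (W'⁄Qb).Point) : zc (σ • P) = σ (zc P) := by
  rcases P with _ | ⟨x, y, h⟩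
  · show (0 : Qb) = σ 0
    rw [map_zero]
  · show -(σ x) / (σ y) = σ (-x / y)
    rw [map_div₀, map_neg]

theorem smul_nsmul' (σ : GQ) (j : ℕ) (Q : (W'⁄Qb).Point) : σ • (j • Q) = j • (σ • Q) :=
  (DistribSMul.toAddMonoidHom (W'⁄Qb).Point σ).map_nsmul j Q

variable {A}

/-- multiples prime to the residue characteristic keep the valuation of `z`. -/
theorem zc_nsmul_val (hW : IntegralCoeffs A.valuation (W'⁄Qb)) {Q : (W'⁄Qb).Point}
    (hQ1 : InE1 A.valuation Q) (hQ0 : Q ≠ 0) {j : ℕ} (hj : A.valuation (j : Qb) = 1) :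
    InE1 A.valuation (j • Q) ∧ A.valuation (zc (j • Q)) = A.valuation (zc Q) := by
  have hlt := hQ1.zc_lt_one hW
  have hpos := hQ1.zc_pos hW hQ0
  obtain ⟨h1, h2⟩ := nsmul_estimate hW hlt hQ1 le_rfl j
  refine ⟨h1, ?_⟩
  have h3 : A.valuation ((j : Qb) * zc Q) = A.valuation (zc Q) := by
    rw [map_mul, hj, one_mul]
  have h4 : A.valuation (zc Q) ^ 2 < A.valuation (zc Q) := by
    rw [sq]
    calc A.valuation (zc Q) * A.valuation (zc Q) < A.valuation (zc Q) * 1 :=
          mul_lt_mul_of_pos_left hlt hpos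
      _ = A.valuation (zc Q) := mul_one _
  have h5 : zc (j • Q) = (j : Qb) * zc Q + (zc (j • Q) - (j : Qb) * zc Q) := by ring
  rw [h5, Valuation.map_add_eq_of_lt_left _ (by rw [h3]; exact lt_of_le_of_lt h2 h4), h3]

/-- `v (x(R)) · v (z(R)) ^ 2 = 1` on the kernel of reduction. -/
theorem val_xc_mul (hW : IntegralCoeffs A.valuation (W'⁄Qb)) {R : (W'⁄Qb).Point}
    (hR1 : InE1 A.valuation R) (hR0 : R ≠ 0) :
    1 < A.valuation (xc R) ∧ A.valuation (xc R) * A.valuation (zc R) ^ 2 = 1 := by
  rcases R with _ | ⟨x, y, h⟩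
  · exact absurd rfl hR0
  have hx : 1 < A.valuation x := (inE1_some A.valuation h).mp hR1
  refine ⟨hx, ?_⟩
  obtain ⟨hxy, hyx⟩ := vy_of_vx hW h.1 hx
  have hx0 : A.valuation x ≠ 0 := (lt_trans zero_lt_one hx).ne'
  have hy0 : A.valuation y ≠ 0 := (lt_trans (lt_trans zero_lt_one hx) hxy).ne'
  show A.valuation x * A.valuation (-x / y) ^ 2 = 1
  rw [map_div₀, Valuation.map_neg, div_pow, hyx]
  field_simp

/-- **`v (z(Q)) ^ (p - 1) = v p`** for a point `Q` of order `p` of the kernel of reduction at `p`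
spanning a Galois-stable line. -/
theorem val_zc_pow_eq {p : ℕ} (hp : p.Prime) (hp2 : p ≠ 2) (hA : A.LiesOverPrime p)
    (hW : IntegralCoeffs A.valuation (W'⁄Qb))
    (hlink : ∀ (x y : Qb) (h : (W'⁄Qb).Nonsingular x y),
      p • Point.some x y h = 0 → ((W'⁄Qb).preΨ (p : ℤ)).eval x = 0)
    (Q : (W'⁄Qb).Point) (hQ0 : Q ≠ 0) (hQp : p • Q = 0) (hQ1 : InE1 A.valuation Q)
    (hstab : ∀ σ : GQ, ∃ k : ℕ, σ • Q = k • Q) :
    A.valuation (zc Q) ^ (p - 1) = A.valuation (p : Qb) := by
  classical
  haveI : Fact p.Prime := ⟨hp⟩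
  set r := A.valuation (zc Q) with hr
  have hlt : r < 1 := hQ1.zc_lt_one hW
  have hpos : 0 < r := hQ1.zc_pos hW hQ0
  have hord : addOrderOf Q = p := addOrderOf_eq_prime hQp hQ0
  have hunit : ∀ j : ℕ, ¬ p ∣ j → A.valuation (j : Qb) = 1 := fun j hj =>
    valuation_natCast_eq_one hp hA hj
  have hmult : ∀ j : ℕ, ¬ p ∣ j → InE1 A.valuation (j • Q) ∧ A.valuation (zc (j • Q)) = r :=
    fun j hj => zc_nsmul_val hW hQ1 hQ0 (hunit j hj)
  have hne : ∀ j : ℕ, ¬ p ∣ j → j • Q ≠ 0 := by
    intro j hj h0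
    apply hj
    rw [← hord]
    exact addOrderOf_dvd_of_nsmul_eq_zero h0
  have hIcc : ∀ j ∈ Finset.Icc 1 (p - 1), ¬ p ∣ j := by
    intro j hj hdvd
    obtain ⟨h1, h2⟩ := Finset.mem_Icc.mp hj
    have := Nat.le_of_dvd (by omega) hdvd
    have := hp.two_le
    omega
  -- (≤) the rational product of the `z`-values
  have hle : r ^ (p - 1) ≤ A.valuation (p : Qb) := by
    set Xz : Finset Qb := (Finset.Icc 1 (p - 1)).image (fun j => zc (j • Q)) with hXz
    have hXzval : ∀ ξ ∈ Xz, A.valuation ξ = r := by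
      intro ξ hξ
      obtain ⟨j, hj, rfl⟩ := Finset.mem_image.mp hξ
      exact (hmult j (hIcc j hj)).2
    have hstabz : ∀ σ : GQ, ∀ ξ ∈ Xz, σ ξ ∈ Xz := by
      intro σ ξ hξ
      obtain ⟨j, hj, rfl⟩ := Finset.mem_image.mp hξ
      obtain ⟨k, hk⟩ := hstab σ
      have hpk : ¬ p ∣ k := by
        intro hdvd
        obtain ⟨m, rfl⟩ := hdvd
        rw [mul_comm, mul_smul, hQp, nsmul_zero] at hk
        have h1 : Q = σ⁻¹ • (σ • Q) := (inv_smul_smul σ Q).symm
        rw [hk] at h1
        exact hQ0 (h1.trans (smul_zero (A := (W'⁄Qb).Point) σ⁻¹))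
      have hpjk : ¬ p ∣ j * k := fun h =>
        (hp.dvd_mul.mp h).elim (hIcc j hj) hpk
      have h1 : σ (zc (j • Q)) = zc ((j * k % p) • Q) := by
        rw [← zc_smul, smul_nsmul', hk, ← mul_smul]
        congr 1
        conv_lhs => rw [← Nat.mod_add_div (j * k) p, add_smul, mul_comm p, mul_smul, hQp,
          nsmul_zero, add_zero]
      rw [h1]
      refine Finset.mem_image.mpr ⟨j * k % p, Finset.mem_Icc.mpr ⟨?_, ?_⟩, rfl⟩
      · rw [Nat.one_le_iff_ne_zero]
        intro h0
        exact hpjk (Nat.dvd_of_mod_eq_zero h0)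
      · have := Nat.mod_lt (j * k) hp.pos
        omega
    obtain ⟨q, hq⟩ := exists_rat_prod_of_stable Xz hstabz
    have hqcast : ((q : ℚ) : Qb) = ∏ ξ ∈ Xz, ξ := by
      rw [← hq]; exact (eq_ratCast (algebraMap ℚ Qb) q).symm
    have hvprod : A.valuation (∏ ξ ∈ Xz, ξ) = r ^ Xz.card := by
      rw [map_prod, Finset.prod_congr rfl hXzval, Finset.prod_const]
    have hcard1 : 1 ≤ Xz.card := by
      rw [Nat.one_le_iff_ne_zero, Finset.card_ne_zero]
      exact ⟨zc (1 • Q), Finset.mem_image.mpr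
        ⟨1, Finset.mem_Icc.mpr ⟨le_rfl, by have := hp.two_le; omega⟩, rfl⟩⟩
    have hcard2 : Xz.card ≤ p - 1 := by
      refine Finset.card_image_le.trans ?_
      rw [Nat.card_Icc]
      omega
    have hq1 : A.valuation ((q : ℚ) : Qb) < 1 := by
      rw [hqcast, hvprod]
      exact pow_lt_one₀ zero_le hlt (by omega)
    have h2 := val_le_val_p_of_rat A hp hA q hq1
    rw [hqcast, hvprod] at h2
    exact (pow_le_pow_right_of_le_one' hlt.le hcard2).trans h2
  -- (≥) the evaluation trick on `preΨ_p`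
  have hge : A.valuation (p : Qb) ≤ r ^ (p - 1) := by
    set f : Qb[X] := (W'⁄Qb).preΨ (p : ℤ) with hfdef
    have hpK : ((p : ℤ) : Qb) ≠ 0 := by
      have : (p : Qb) ≠ 0 := by exact_mod_cast hp.ne_zero
      simpa using this
    have hf0 : f ≠ 0 := (W'⁄Qb).preΨ_ne_zero hpK
    have hodd : ¬ Even (p : ℤ) := by
      intro he
      have : Even p := by exact_mod_cast he
      exact hp2 ((Nat.Prime.even_iff hp).mp this)
    have hlc : f.leadingCoeff = (p : Qb) := by
      rw [hfdef, (W'⁄Qb).leadingCoeff_preΨ hpK, if_neg hodd]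
      simp
    have hcoef : ∀ i, A.valuation (f.coeff i) ≤ 1 := by
      intro i
      obtain ⟨h1, h2, h3, h4, h6⟩ := hW
      have := coeff_preΨ_mem A.toSubring (W'⁄Qb)
        ((A.valuation_le_one_iff _).mp h1) ((A.valuation_le_one_iff _).mp h2)
        ((A.valuation_le_one_iff _).mp h3) ((A.valuation_le_one_iff _).mp h4)
        ((A.valuation_le_one_iff _).mp h6) (p : ℤ) i
      exact (A.valuation_le_one_iff _).mpr this
    set h := (p - 1) / 2 with hh
    have h2h : 2 * h = p - 1 := by
      rcases hp.eq_two_or_odd with h2 | h2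
      · exact absurd h2 hp2
      · omega
    have hIcc' : ∀ j ∈ Finset.Icc 1 h, ¬ p ∣ j := by
      intro j hj
      refine hIcc j (Finset.mem_Icc.mpr ?_)
      obtain ⟨h1, h2⟩ := Finset.mem_Icc.mp hj
      omega
    set Xx : Finset Qb := (Finset.Icc 1 h).image (fun j => xc (j • Q)) with hXx
    have hinj : Set.InjOn (fun j => xc (j • Q)) (↑(Finset.Icc 1 h) : Set ℕ) := by
      intro j hj j' hj' hxx
      have hj1 := Finset.mem_Icc.mp hj
      have hj1' := Finset.mem_Icc.mp hj'
      have hjQ := hne j (hIcc' j hj)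
      have hjQ' := hne j' (hIcc' j' hj')
      simp only at hxx
      have key : j • Q = j' • Q ∨ j • Q = -(j' • Q) := by
        generalize j • Q = R at hxx hjQ
        generalize j' • Q = R' at hxx hjQ'
        rcases R with _ | ⟨x, y, hxy⟩
        · exact absurd rfl hjQ
        rcases R' with _ | ⟨x', y', hxy'⟩
        · exact absurd rfl hjQ'
        have hx : x = x' := hxx
        subst hx
        rcases Affine.Y_eq_of_X_eq hxy.1 hxy'.1 rfl with hy | hy
        · subst hy; exact Or.inl rfl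
        · right
          rw [Point.neg_some]
          congr 1
      rcases key with key | key
      · -- `j • Q = j' • Q`
        have hmod : j ≡ j' [MOD p] := by
          rw [← hord]
          exact (nsmul_eq_nsmul_iff_modEq).mp key
        have h1 : j % p = j := Nat.mod_eq_of_lt (by omega)
        have h2 : j' % p = j' := Nat.mod_eq_of_lt (by omega)
        have := hmod
        unfold Nat.ModEq at this
        omega
      · exfalso
        have h0 : (j + j') • Q = 0 := by
          rw [add_smul, key, neg_add_cancel]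
        have hdvd : p ∣ j + j' := by
          rw [← hord]; exact addOrderOf_dvd_of_nsmul_eq_zero h0
        have := Nat.le_of_dvd (by omega) hdvd
        omega
    have hroot : ∀ ξ ∈ Xx, f.eval ξ = 0 ∧ 1 < A.valuation ξ := by
      intro ξ hξ
      obtain ⟨j, hj, rfl⟩ := Finset.mem_image.mp hξ
      have hjQ := hne j (hIcc' j hj)
      have hj1 := (hmult j (hIcc' j hj)).1
      have hjp : p • (j • Q) = 0 := by rw [smul_comm, hQp, nsmul_zero]
      refine ⟨?_, (val_xc_mul hW hj1 hjQ).1⟩
      generalize j • Q = R at hjQ hjp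
      rcases R with _ | ⟨x, y, hxy⟩
      · exact absurd rfl hjQ
      · exact hlink x y hxy hjp
    have hmain := val_leadingCoeff_mul_prod_le_one A f hf0 hcoef Xx hroot
    rw [hlc, hXx, Finset.prod_image hinj] at hmain
    have hterm : ∀ j ∈ Finset.Icc 1 h, A.valuation (xc (j • Q)) = (r ^ 2)⁻¹ := by
      intro j hj
      have h1 := (val_xc_mul hW (hmult j (hIcc' j hj)).1 (hne j (hIcc' j hj))).2
      rw [(hmult j (hIcc' j hj)).2] at h1
      exact eq_inv_of_mul_eq_one_left h1
    rw [Finset.prod_congr rfl hterm, Finset.prod_const, Nat.card_Icc, Nat.add_sub_cancel,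
      inv_pow, ← pow_mul, h2h] at hmain
    have hrpos : 0 < r ^ (p - 1) := pow_pos hpos _
    have := (mul_inv_le_iff₀ hrpos).mp hmain
    rwa [one_mul] at this
  exact le_antisymm hle hge

end Main

end Fermat.Agent.MS.GLOB.ValZ6
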