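/-
Programme MS (S12), chapter GLOB (helper6): **the Galois group acts on a cofixed line of the Frey
curve through the mod `p` cyclotomic character.**

`N ⊆ E[p]` a Galois-stable line with trivial action on `E[p] / N` (`HasGaloisStableCofixedLine`).

* `le_V1` : `N` lies in the kernel of reduction at every valuation subring over `p`;
* `inertia_p_smul` : the inertia groups over `p` act on `N` through `χ` (tame comparison of the
  `z`-coordinate with `1 - ζ_p`, `ValZ6.val_zc_pow_eq`, `TameCyc6.tame_compare`);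
* `inertia_q_smul` : the inertia groups over `q ≠ p` act trivially on `N`, and `χ` is trivial on them;
* **`cofixed_line_cyclo` : `σ • x = χ(σ) • x` for all `σ ∈ G_ℚ`, `x ∈ N`** (no everywhere unramified
  extension of `ℚ`, `S13/UnramBridge.eq_top_of_finite_set`).
-/
import Mathlib
import Fermat.Agent.MS.GLOB.TameCyc6
import Fermat.Agent.MS.GLOB.ValZ6
import Fermat.Agent.S13.Endgame
import Fermat.Agent.S13.RatBridge
import Fermat.Agent.S13.UnramMain
import Fermat.Agent.S13.UnramBridge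
import Fermat.Agent.DivPoly.Count
import Fermat.Agent.DivPoly.TorsionFinal
import Fermat.Agent.S05
import Fermat.Agent.S13.FreyDelta
import Fermat.Agent.S13.Local2
import Fermat.Agent.S13.LocalP
import Fermat.Agent.S13.RatTors2

set_option autoImplicit false
set_option linter.unusedSectionVars false
set_option linter.style.longLine false
set_option linter.style.haveILetI false

open WeierstrassCurve WeierstrassCurve.Affine WeierstrassCurve.Affine.Point
open FreyPackage ExtCitation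

namespace Fermat.Agent.MS.GLOB.CycloLine6

open Fermat.Agent.S05.Kernel Fermat.Agent.S05.Inertia Fermat.Agent.S13
open Fermat.Agent.S14.ExtCocycle (chi chi_one chi_mul chi_inv chi_conj cycloExp_cast)
open Fermat.Agent.MS.GLOB.TameCyc6 Fermat.Agent.MS.GLOB.ValZ6

local notation "Qb" => AlgebraicClosure ℚ
local notation "GQ" => (AlgebraicClosure ℚ ≃ₐ[ℚ] AlgebraicClosure ℚ)

variable (P : FreyPackage)

/-- the `p`-torsion of the Frey curve. -/
abbrev Vp : Type := Submodule.torsionBy ℤ (P.freyCurve⁄Qb).Point P.p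

instance factPrime : Fact P.p.Prime := ⟨P.pp⟩

/-! ### the standing facts on `E[p]` -/

theorem hA1b (x y : Qb) (h : (P.freyCurve⁄Qb).Nonsingular x y) :
    P.p • (Point.some x y h) = 0 ↔ ((P.freyCurve⁄Qb).preΨ (P.p : ℤ)).eval x = 0 := by
  convert Fermat.Agent.DivPoly.Torsion.nsmul_eq_zero_iff_preΨ h P.hp_odd

theorem htor : Fermat.Agent.DivPoly.Count.TorsionIff (P.freyCurve⁄Qb) P.p := by
  intro x y h
  convert Fermat.Agent.DivPoly.Torsion.torsionIff (P.freyCurve⁄Qb) P.hp_odd x y h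

theorem hpF : ((P.p : ℕ) : Qb) ≠ 0 := by exact_mod_cast P.hp0

instance finite_Vp : Finite (Vp P) :=
  Fermat.Agent.DivPoly.Count.finite_torsionBy P.hp_odd (hpF P) (htor P)

theorem hcard : Nat.card (Vp P) ≤ P.p ^ 2 :=
  Fermat.Agent.DivPoly.Count.card_torsionBy_le P.hp_odd (hpF P) (htor P)

instance moduleFinite_Vp : Module.Finite (ZMod P.p) (Vp P) := Module.Finite.of_finite

theorem hdim : Module.finrank (ZMod P.p) (Vp P) ≤ 2 :=
  AtPLin.finrank_le_two_of_card_le (p := P.p) (hcard P)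

/-- the `ZMod p`-action on `E[p]` is the `ℕ`-action of the representative. -/
theorem zmod_smul_eq (c : ZMod P.p) (x : (Vp P)) : c • x = c.val • x := by
  conv_lhs => rw [← ZMod.natCast_zmod_val c]
  exact Nat.cast_smul_eq_nsmul (ZMod P.p) c.val x

theorem coe_zmod_smul (c : ZMod P.p) (x : (Vp P)) :
    ((c • x : (Vp P)) : (P.freyCurve⁄Qb).Point) = c.val • (x : (P.freyCurve⁄Qb).Point) := by
  rw [zmod_smul_eq]
  rfl

theorem smul_zmod_smul (σ : GQ) (c : ZMod P.p) (x : (Vp P)) : σ • (c • x) = c • (σ • x) := by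
  rw [zmod_smul_eq, zmod_smul_eq]
  exact (DistribSMul.toAddMonoidHom (Vp P) σ).map_nsmul c.val x

variable {P}
variable {N : Submodule (ZMod P.p) (Vp P)}

/-- a Galois-stable line fixed pointwise by an inertia group over `p` does not exist. -/
theorem not_inertia_fixed (hN : IsGaloisStable ℚ N) (hbot : N ≠ ⊥) (htop : N ≠ ⊤)
    {A : ValuationSubring Qb} (hA : A.LiesOverPrime P.p)
    (h : ∀ σ ∈ A.inertiaSubgroupIn ℚ, ∀ x ∈ N, σ • x = x) : False := by
  have hfix : ∀ (σ : GQ), ∀ x ∈ N, σ • x = x := by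
    refine UnramBridge.kerOn_eq_top P.freyCurve P.p N hN ?_
    intro q hq
    by_cases hqp : q = P.p
    · subst hqp
      exact ⟨A, hA, h⟩
    by_cases hq2 : q = 2
    · subst hq2
      obtain ⟨A2, hA2⟩ := UnramBridge.exists_liesOverPrime_qbar 2 hq
      exact ⟨A2, hA2, fun σ hσ => (Local2.local_at_2 P (hcard P) N hN hbot htop A2 hA2 σ hσ).1⟩
    · obtain ⟨Aq, hAq⟩ := UnramBridge.exists_liesOverPrime_qbar q hq
      exact ⟨Aq, hAq, fun σ hσ x _ => Fermat.Agent.S05.result P hq hq2 hqp Aq hAq σ hσ x⟩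
  obtain ⟨x, hxN, hx0⟩ := (Submodule.ne_bot_iff N).mp hbot
  exact hx0 (RatBridge.no_fixed_torsion_of_no_rational P.freyCurve P.p
    (fun x y h => RatTors2.no_rational_torsion_coord P x y h) x fun σ => hfix σ x hxN)

/-- **a cofixed line lies in the kernel of reduction at `p`.** -/
theorem le_V1 (hN : IsGaloisStable ℚ N) (hbot : N ≠ ⊥) (htop : N ≠ ⊤)
    (hcof : ∀ σ : GQ, ∀ x : (Vp P), σ • x - x ∈ N)
    {A : ValuationSubring Qb} (hA : A.LiesOverPrime P.p) : N ≤ FreyE1.V1 P A := by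
  have hV1top : FreyE1.V1 P A ≠ ⊤ := by
    intro h
    exact Supersingular.no_stable_line_nsmul P hA (hA1b P) (FreyE1.one_lt_of_V1_eq_top P h)
      N hN hbot htop
  have hfixed_of : (∀ σ ∈ A.inertiaSubgroupIn ℚ, ∀ x : (Vp P), σ • x - x = 0) → False := by
    intro h0
    exact not_inertia_fixed hN hbot htop hA fun σ hσ x _ => sub_eq_zero.mp (h0 σ hσ x)
  have hV1bot : FreyE1.V1 P A ≠ ⊥ := by
    intro h
    refine hfixed_of fun σ hσ x => ?_
    have := FreyE1.close_at_p P hA hσ x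
    rwa [h, Submodule.mem_bot] at this
  rcases AtPLin.le_or_disjoint (hdim P) (FreyE1.V1 P A) N hV1bot hV1top htop with h | h
  · exact h
  · exfalso
    refine hfixed_of fun σ hσ x => ?_
    have h1 : σ • x - x ∈ N ⊓ FreyE1.V1 P A := ⟨hcof σ x, FreyE1.close_at_p P hA hσ x⟩
    rwa [disjoint_iff.mp h, Submodule.mem_bot] at h1

/-- a line is spanned by each of its nonzero vectors. -/
theorem exists_smul_eq_of_line (htop : N ≠ ⊤) {Q₀ : (Vp P)} (hQN : Q₀ ∈ N)
    (hQ0 : Q₀ ≠ 0) {w : (Vp P)} (hw : w ∈ N) : ∃ c : ZMod P.p, c • Q₀ = w := by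
  have h1 : Module.finrank (ZMod P.p) N < Module.finrank (ZMod P.p) (Vp P) := Submodule.finrank_lt htop
  have h2 : 0 < Module.finrank (ZMod P.p) N := by
    rw [Module.finrank_pos_iff_exists_ne_zero]
    exact ⟨⟨Q₀, hQN⟩, fun h => hQ0 (congrArg Subtype.val h)⟩
  have hfr : Module.finrank (ZMod P.p) N = 1 := by have := hdim P; omega
  have hne : (⟨Q₀, hQN⟩ : N) ≠ 0 := fun h => hQ0 (congrArg Subtype.val h)
  obtain ⟨c, hc⟩ := (finrank_eq_one_iff_of_nonzero' (⟨Q₀, hQN⟩ : N) hne).mp hfr ⟨w, hw⟩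
  exact ⟨c, congrArg Subtype.val hc⟩

/-- **the inertia groups over `p` act on a cofixed line through `χ`.** -/
theorem inertia_p_smul (hN : IsGaloisStable ℚ N) (hbot : N ≠ ⊥) (htop : N ≠ ⊤)
    (hcof : ∀ σ : GQ, ∀ x : (Vp P), σ • x - x ∈ N)
    {A : ValuationSubring Qb} (hA : A.LiesOverPrime P.p) {σ : GQ}
    (hσ : σ ∈ A.inertiaSubgroupIn ℚ) : ∀ x ∈ N, σ • x = chi P.p σ • x := by
  have hpp := P.pp
  have hp2 : P.p ≠ 2 := by have := P.hp5; omega
  obtain ⟨Q₀, hQN, hQ0⟩ := (Submodule.ne_bot_iff N).mp hbot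
  have hW := FreyE1.integralCoeffs_frey (K := Qb) P A
  set Q : (P.freyCurve⁄Qb).Point := (Q₀ : (P.freyCurve⁄Qb).Point) with hQ
  have hQne : Q ≠ 0 := fun h => hQ0 (Subtype.ext h)
  have hQp : P.p • Q = 0 := FreyE1.nsmul_eq_zero_of_mem P Q₀
  have hQ1 : InE1 A.valuation Q := (FreyE1.mem_V1 P).mp (le_V1 hN hbot htop hcof hA hQN)
  have hstab : ∀ τ : GQ, ∃ k : ℕ, τ • Q = k • Q := by
    intro τ
    obtain ⟨c, hc⟩ := exists_smul_eq_of_line htop hQN hQ0 (hN τ Q₀ hQN)
    refine ⟨c.val, ?_⟩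
    have := congrArg (Subtype.val) hc
    rw [coe_zmod_smul] at this
    exact this.symm
  have hz := val_zc_pow_eq hpp hp2 hA hW (fun x y h => (hA1b P x y h).mp) Q hQne hQp hQ1 hstab
  obtain ⟨c, hc⟩ := exists_smul_eq_of_line htop hQN hQ0 (hN σ Q₀ hQN)
  have hσQ : σ • Q = c.val • Q := by
    have := congrArg (Subtype.val) hc
    rw [coe_zmod_smul] at this
    exact this.symm
  have hlt := hQ1.zc_lt_one hW
  have hest : A.valuation (σ (zc Q) - (c.val : Qb) * zc Q) ≤ A.valuation (zc Q) ^ 2 := by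
    rw [← zc_smul, hσQ]
    exact (nsmul_estimate hW hlt hQ1 le_rfl c.val).2
  have hcmp := tame_compare hA hσ hz hest
  rw [ZMod.natCast_zmod_val, cycloExp_cast] at hcmp
  intro x hx
  obtain ⟨d, rfl⟩ := exists_smul_eq_of_line htop hQN hQ0 hx
  rw [smul_zmod_smul, ← hc, ← hcmp, smul_comm]

/-- **the inertia groups over `q ≠ p` act trivially on `N`, and `χ` is trivial on them.** -/
theorem inertia_q_smul (hN : IsGaloisStable ℚ N) (hbot : N ≠ ⊥) (htop : N ≠ ⊤)
    {q : ℕ} (hq : q.Prime) (hqp : q ≠ P.p)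
    {A : ValuationSubring Qb} (hA : A.LiesOverPrime q) {σ : GQ}
    (hσ : σ ∈ A.inertiaSubgroupIn ℚ) : ∀ x ∈ N, σ • x = chi P.p σ • x := by
  have hchi : chi P.p σ = 1 := by
    rw [← cycloExp_cast]
    exact cycloExp_eq_one_of_inertia hq hqp hA hσ
  intro x hx
  rw [hchi, one_smul]
  by_cases hq2 : q = 2
  · subst hq2
    exact (Local2.local_at_2 P (hcard P) N hN hbot htop A hA σ hσ).1 x hx
  · exact Fermat.Agent.S05.result P hq hq2 hqp A hA σ hσ x

/-- the subgroup of `G_ℚ` acting on `N` through `χ`. -/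
def chiOn (hN : IsGaloisStable ℚ N) : Subgroup GQ where
  carrier := {σ | ∀ x ∈ N, σ • x = chi P.p σ • x}
  one_mem' := fun x _ => by rw [one_smul, chi_one, one_smul]
  mul_mem' := by
    intro σ τ hσ hτ x hx
    rw [mul_smul, hτ x hx, smul_zmod_smul, hσ x hx, chi_mul, mul_smul, smul_comm]
  inv_mem' := by
    intro σ hσ x hx
    have h1 : σ⁻¹ • x ∈ N := hN σ⁻¹ x hx
    have h2 := hσ (σ⁻¹ • x) h1
    rw [smul_inv_smul] at h2
    have hne : chi P.p σ ≠ 0 := Fermat.Agent.S14.ExtCocycle.chi_ne_zero P.p σ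
    rw [chi_inv]
    conv_rhs => rw [h2, smul_smul, inv_mul_cancel₀ hne, one_smul]

theorem mem_chiOn (hN : IsGaloisStable ℚ N) {σ : GQ} :
    σ ∈ chiOn hN ↔ ∀ x ∈ N, σ • x = chi P.p σ • x := Iff.rfl

theorem chiOn_normal (hN : IsGaloisStable ℚ N) : (chiOn hN).Normal := by
  refine ⟨fun σ hσ δ => ?_⟩
  intro x hx
  have h1 : δ⁻¹ • x ∈ N := hN δ⁻¹ x hx
  rw [chi_conj, mul_smul, mul_smul, hσ _ h1, smul_zmod_smul, smul_inv_smul]

/-- **`G_ℚ` acts on a cofixed line of the Frey curve through the mod `p` cyclotomic character.** -/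
theorem cofixed_line_chi (hN : IsGaloisStable ℚ N) (hbot : N ≠ ⊥) (htop : N ≠ ⊤)
    (hcof : ∀ σ : GQ, ∀ x : (Vp P), σ • x - x ∈ N) :
    ∀ σ : GQ, ∀ x ∈ N, σ • x = chi P.p σ • x := by
  haveI := chiOn_normal hN
  have htopG : chiOn hN = ⊤ := by
    refine UnramBridge.eq_top_of_finite_set (chiOn hN)
      (UnramMain.coordSet P.freyCurve P.p ∪ {Fermat.Agent.S14.Fields.zeta P.p})
      (UnramMain.coordSet_finite.union (Set.finite_singleton _)) ?_ ?_
    · intro τ hτ x _
      have h1 : τ • x = x := UnramMain.smul_eq_self_of_coordSet τ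
        (fun z hz => hτ z (Set.mem_union_left _ hz)) x
      have h2 : chi P.p τ = 1 := by
        rw [← cycloExp_cast, ← apply_zeta_eq_iff]
        exact hτ _ (Set.mem_union_right _ rfl)
      rw [h1, h2, one_smul]
    · intro q hq
      obtain ⟨A, hA⟩ := UnramBridge.exists_liesOverPrime_qbar q hq
      refine ⟨A, hA, fun σ hσ => ?_⟩
      by_cases hqp : q = P.p
      · subst hqp
        exact inertia_p_smul hN hbot htop hcof hA hσ
      · exact inertia_q_smul hN hbot htop hq hqp hA hσ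
  intro σ
  have : σ ∈ chiOn hN := htopG ▸ Subgroup.mem_top σ
  exact this

/-- the same, with `cycloExp` (the shape of `IsAdmissibleExtension.cyclo_quot`). -/
theorem cofixed_line_cyclo (hN : IsGaloisStable ℚ N) (hbot : N ≠ ⊥) (htop : N ≠ ⊤)
    (hcof : ∀ σ : GQ, ∀ x : (Vp P), σ • x - x ∈ N) (σ : GQ) {x : (Vp P)} (hx : x ∈ N) :
    σ • x = ((cycloExp P.p σ : ℕ) : ZMod P.p) • x := by
  rw [cycloExp_cast]
  exact cofixed_line_chi hN hbot htop hcof σ x hx

end Fermat.Agent.MS.GLOB.CycloLine6
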