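/-
Programme MS (S12), chapter GLOB (helper6): **the base object of the induction** : a Galois-stable
cofixed line of the Frey curve is a `Cof P 1` (`MS/STEP/CofStep8`).

* `exists_cof_one` : from the data of `HasGaloisStableCofixedLine`, a `D : Cof P 1` whose
  `D.K` is the underlying set of the line `N` (`mem_K_iff`), the cyclotomic action `hN` being
  `CycloLine6.cofixed_line_cyclo`.
-/
import Mathlib
import Fermat.Agent.MS.GLOB.CycloLine6
import Fermat.Agent.MS.STEP.CofStep8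

set_option autoImplicit false
set_option linter.unusedSectionVars false
set_option linter.style.longLine false
set_option linter.style.haveILetI false

open WeierstrassCurve WeierstrassCurve.Affine WeierstrassCurve.Affine.Point
open FreyPackage ExtCitation

namespace Fermat.Agent.MS.GLOB.BaseCof6

open Fermat.Agent.MS.GLOB.CycloLine6 Fermat.Agent.MS.STEP.StepAlg8 Fermat.Agent.MS.STEP.CofStep8

local notation "Qb" => AlgebraicClosure ℚ
local notation "GQ" => (AlgebraicClosure ℚ ≃ₐ[ℚ] AlgebraicClosure ℚ)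

variable {P : FreyPackage} {N : Submodule (ZMod P.p) (Vp P)}

/-- the underlying points of a line `N = ⟨Q₀⟩` are the multiples of `Q₀`. -/
theorem mem_zmultiples_iff (htop : N ≠ ⊤) {Q₀ : Vp P} (hQN : Q₀ ∈ N) (hQ0 : Q₀ ≠ 0)
    (x : (P.freyCurve⁄Qb).Point) :
    x ∈ AddSubgroup.zmultiples (Q₀ : (P.freyCurve⁄Qb).Point) ↔
      ∃ hx : x ∈ Submodule.torsionBy ℤ (P.freyCurve⁄Qb).Point P.p, (⟨x, hx⟩ : Vp P) ∈ N := by
  constructor
  · intro hx
    obtain ⟨n, rfl⟩ := AddSubgroup.mem_zmultiples_iff.mp hx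
    have h1 : ((n • Q₀ : Vp P) : (P.freyCurve⁄Qb).Point) = n • (Q₀ : (P.freyCurve⁄Qb).Point) := rfl
    refine ⟨h1 ▸ (n • Q₀ : Vp P).2, ?_⟩
    have h2 : (⟨n • (Q₀ : (P.freyCurve⁄Qb).Point), h1 ▸ (n • Q₀ : Vp P).2⟩ : Vp P) = n • Q₀ :=
      Subtype.ext h1.symm
    rw [h2]
    exact N.toAddSubgroup.zsmul_mem hQN n
  · rintro ⟨hx, hxN⟩
    obtain ⟨c, hc⟩ := exists_smul_eq_of_line htop hQN hQ0 hxN
    have h1 := congrArg Subtype.val hc
    rw [coe_zmod_smul] at h1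
    simp only at h1
    rw [← h1]
    exact AddSubgroup.nsmul_mem _ (AddSubgroup.mem_zmultiples _) _

/-- **the base object** `Cof(1)` attached to a cofixed line of the Frey curve. -/
theorem exists_cof_one (hN : IsGaloisStable ℚ N) (hbot : N ≠ ⊥) (htop : N ≠ ⊤)
    (hcof : ∀ σ : GQ, ∀ x : Vp P, σ • x - x ∈ N) :
    ∃ D : Cof P 1, ∀ x : EPt P,
      x ∈ D.K ↔ ∃ hx : x ∈ Submodule.torsionBy ℤ (P.freyCurve⁄Qb).Point P.p,
        (⟨x, hx⟩ : Vp P) ∈ N := by
  obtain ⟨Q₀, hQN, hQ0⟩ := (Submodule.ne_bot_iff N).mp hbot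
  set g₀ : (P.freyCurve⁄Qb).Point := (Q₀ : (P.freyCurve⁄Qb).Point) with hg₀
  have hg0 : g₀ ≠ 0 := fun h => hQ0 (Subtype.ext h)
  have hgp : P.p • g₀ = 0 := Fermat.Agent.S13.FreyE1.nsmul_eq_zero_of_mem P Q₀
  have hmem := mem_zmultiples_iff htop hQN hQ0
  have htors : ∀ x : (P.freyCurve⁄Qb).Point, P.p ^ 1 • x = 0 →
      x ∈ Submodule.torsionBy ℤ (P.freyCurve⁄Qb).Point P.p := by
    intro x hx
    rw [Submodule.mem_torsionBy_iff, natCast_zsmul]
    rwa [pow_one] at hx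
  refine ⟨{ K := AddSubgroup.zmultiples g₀
            stable := ?_
            gen := g₀
            K_eq := rfl
            order := ?_
            cofix := ?_
            hN := ?_ }, fun x => hmem x⟩
  · intro σ x hx
    obtain ⟨hx', hxN⟩ := (hmem x).mp hx
    exact (hmem _).mpr ⟨_, hN σ ⟨x, hx'⟩ hxN⟩
  · rw [pow_one]
    exact addOrderOf_eq_prime hgp hg0
  · intro σ x hx
    have hx' := htors x hx
    exact (hmem _).mpr ⟨_, hcof σ ⟨x, hx'⟩⟩
  · intro σ y hy _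
    obtain ⟨hy', hyN⟩ := (hmem y).mp hy
    have h1 := cofixed_line_cyclo hN hbot htop hcof σ hyN
    have h2 := congrArg Subtype.val h1
    rw [Nat.cast_smul_eq_nsmul] at h2
    exact h2

/-- the same from `HasGaloisStableCofixedLine`. -/
theorem exists_cof_one_of_cofixed
    (h : HasGaloisStableCofixedLine (K := Qb) ℚ P.freyCurve P.p) :
    ∃ (N : Submodule (ZMod P.p) (Vp P)) (_ : IsGaloisStable ℚ N) (_ : N ≠ ⊥) (_ : N ≠ ⊤)
      (_ : ∀ σ : GQ, ∀ x : Vp P, σ • x - x ∈ N) (D : Cof P 1),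
      ∀ x : EPt P, x ∈ D.K ↔
        ∃ hx : x ∈ Submodule.torsionBy ℤ (P.freyCurve⁄Qb).Point P.p, (⟨x, hx⟩ : Vp P) ∈ N := by
  obtain ⟨N, hN, hbot, htop, hcof⟩ := h
  obtain ⟨D, hD⟩ := exists_cof_one hN hbot htop hcof
  exact ⟨N, hN, hbot, htop, hcof, D, hD⟩

end Fermat.Agent.MS.GLOB.BaseCof6
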