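/-
Programme MS (S12), chapter GLOB (helper6): **(R) for a Frey package** : the mod `p` cyclotomic
character is ramified at every place over `p = P.p` — literally the body of
`MS/LOCP/SplitAtP2.RamAtP P`.
-/
import Mathlib
import Fermat.Agent.MS.GLOB.TameCyc6
import Fermat.Prelude.Def_FLTPrelim_FreyPackage

set_option autoImplicit false
set_option linter.style.longLine false

namespace Fermat.Agent.MS.GLOB.RamFrey6

local notation "Qb" => AlgebraicClosure ℚ

/-- **(R)** : `χ mod p` is ramified at every place over `p` (unfolded form of `RamAtP P`). -/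
theorem ramAtP (P : FreyPackage) [Fact P.p.Prime] :
    ∀ A : ValuationSubring Qb, A.LiesOverPrime P.p →
      ∃ σ ∈ A.inertiaSubgroupIn ℚ, ((ExtCitation.cycloExp P.p σ : ℕ) : ZMod P.p) ≠ 1 :=
  fun _ hA => Fermat.Agent.MS.GLOB.TameCyc6.exists_inertia_cycloExp_ne_one
    (by have := P.hp5; omega) hA

end Fermat.Agent.MS.GLOB.RamFrey6
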